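import Mathlib

/-!
# S37 [ES] (helper38): bounded homomorphisms on divisors, pointwise form

Pure `Finsupp` algebra (Mathlib only).

* `nrm E = ∑ |E x|` : the `ℓ¹`-norm of a finitely supported integer function.
* `eq_zero_of_bounded` : an additive map `δ : (X →₀ ℤ) →+ (Y →₀ ℤ)` which is bounded on the
  generators `single P 1` and kills a subgroup `Pr`, kills every `D` all of whose multiples are
  `Pr`-equivalent to elements of bounded norm  (bounded-homomorphism trick of helper697).
* `pointwise_of_degZero` : if moreover `δ = τ - ρ` on generators, `τ (single P 1) ≥ 0` of total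
  mass `≤ m + 1`, `ρ (single P 1) = single (a P) 1 + single (b P) m`, and `(a, b)` avoids every
  finite set, then `τ (single P 1) = ρ (single P 1)` for EVERY `P` (not only in degree `0`).
-/

set_option autoImplicit false

namespace Fermat.Agent.S37.Sq38

open Finsupp

section Norm

variable {X : Type*}

/-- the `ℓ¹`-norm, in the raw form used by the landed Riemann bounds (`H98`, `H39`) -/
noncomputable def nrm (E : X →₀ ℤ) : ℕ := E.sum fun _ n => n.natAbs

theorem nrm_def (E : X →₀ ℤ) : nrm E = E.sum fun _ n => n.natAbs := rfl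

theorem nrm_zero : nrm (0 : X →₀ ℤ) = 0 := by simp [nrm]

theorem nrm_single (P : X) (n : ℤ) : nrm (single P n) = n.natAbs := by
  simp [nrm, Finsupp.sum_single_index]

theorem nrm_add_le (D E : X →₀ ℤ) : nrm (D + E) ≤ nrm D + nrm E := by
  classical
  have h1 : (D + E).sum (fun _ n => n.natAbs)
      = ∑ x ∈ D.support ∪ E.support, ((D + E) x).natAbs :=
    Finsupp.sum_of_support_subset _ Finsupp.support_add _ (fun _ _ => rfl)
  have h2 : D.sum (fun _ n => n.natAbs) = ∑ x ∈ D.support ∪ E.support, (D x).natAbs :=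
    Finsupp.sum_of_support_subset _ Finset.subset_union_left _ (fun _ _ => rfl)
  have h3 : E.sum (fun _ n => n.natAbs) = ∑ x ∈ D.support ∪ E.support, (E x).natAbs :=
    Finsupp.sum_of_support_subset _ Finset.subset_union_right _ (fun _ _ => rfl)
  rw [nrm, nrm, nrm, h1, h2, h3, ← Finset.sum_add_distrib]
  exact Finset.sum_le_sum fun x _ => by
    rw [Finsupp.add_apply]; exact Int.natAbs_add_le _ _

theorem nrm_neg (D : X →₀ ℤ) : nrm (-D) = nrm D := by
  classical
  rw [nrm, nrm, Finsupp.sum, Finsupp.sum, Finsupp.support_neg]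
  exact Finset.sum_congr rfl fun x _ => by rw [Finsupp.neg_apply, Int.natAbs_neg]

theorem nrm_sub_le (D E : X →₀ ℤ) : nrm (D - E) ≤ nrm D + nrm E := by
  rw [sub_eq_add_neg]
  exact (nrm_add_le D (-E)).trans (by rw [nrm_neg])

theorem natAbs_apply_le_nrm (E : X →₀ ℤ) (x : X) : (E x).natAbs ≤ nrm E := by
  classical
  by_cases hx : x ∈ E.support
  · rw [nrm, Finsupp.sum]
    exact Finset.single_le_sum (f := fun y => (E y).natAbs) (fun _ _ => Nat.zero_le _) hx
  · rw [Finsupp.notMem_support_iff.mp hx]; simp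

theorem nrm_zsmul (n : ℤ) (D : X →₀ ℤ) : nrm (n • D) ≤ n.natAbs * nrm D := by
  classical
  rw [nrm, nrm, Finsupp.sum, Finsupp.sum, Finset.mul_sum]
  calc ∑ x ∈ (n • D).support, ((n • D) x).natAbs
      ≤ ∑ x ∈ D.support, ((n • D) x).natAbs := by
        refine Finset.sum_le_sum_of_subset_of_nonneg Finsupp.support_smul ?_
        intro _ _ _; exact Nat.zero_le _
    _ = ∑ x ∈ D.support, n.natAbs * (D x).natAbs := by
        refine Finset.sum_congr rfl fun x _ => ?_
        rw [Finsupp.smul_apply, smul_eq_mul, Int.natAbs_mul]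
    _ ≤ _ := le_rfl

/-- for a nonnegative function the norm is the total mass -/
theorem nrm_eq_sum_of_nonneg {E : X →₀ ℤ} (hE : ∀ x, 0 ≤ E x) :
    (nrm E : ℤ) = E.sum fun _ n => n := by
  rw [nrm, Finsupp.sum, Finsupp.sum, Nat.cast_sum]
  exact Finset.sum_congr rfl fun x _ => Int.natAbs_of_nonneg (hE x)

end Norm

section Bounded

variable {X Y : Type*}

/-- a map bounded on generators is bounded by `C * nrm` -/
theorem nrm_map_le (δ : (X →₀ ℤ) →+ (Y →₀ ℤ)) (C : ℕ)
    (hC : ∀ P : X, nrm (δ (single P 1)) ≤ C) (E : X →₀ ℤ) :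
    nrm (δ E) ≤ C * nrm E := by
  classical
  induction E using Finsupp.induction with
  | zero => simp [nrm_zero]
  | single_add P n E hP hn ih =>
    have h1 : nrm (single P n + E) = n.natAbs + nrm E := by
      rw [nrm, Finsupp.sum_add_index_of_disjoint, Finsupp.sum_single_index (by simp)]
      · rfl
      · rw [Finset.disjoint_left]
        intro x hx hxE
        rw [Finsupp.support_single_ne_zero _ hn, Finset.mem_singleton] at hx
        subst hx
        exact hP hxE
    have h2 : δ (single P n) = n • δ (single P 1) := by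
      rw [← map_zsmul, Finsupp.smul_single, smul_eq_mul, mul_one]
    rw [map_add, h1, mul_add]
    refine (nrm_add_le _ _).trans (add_le_add ?_ ih)
    rw [h2]
    refine (nrm_zsmul _ _).trans ?_
    rw [mul_comm]
    exact Nat.mul_le_mul_right _ (hC P)

/-- **Bounded-homomorphism trick** (helper697).  `δ` kills `Pr`, is bounded on generators, and
every multiple of `D` is `Pr`-equivalent to an element of norm `≤ B`: then `δ D = 0`. -/
theorem eq_zero_of_bounded (δ : (X →₀ ℤ) →+ (Y →₀ ℤ)) (Pr : AddSubgroup (X →₀ ℤ))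
    (hprin : ∀ D ∈ Pr, δ D = 0) (C : ℕ) (hC : ∀ P : X, nrm (δ (single P 1)) ≤ C)
    (D : X →₀ ℤ) (B : ℕ)
    (hB : ∀ n : ℕ, ∃ E : X →₀ ℤ, nrm E ≤ B ∧ n • D - E ∈ Pr) : δ D = 0 := by
  ext Q
  rw [Finsupp.zero_apply]
  by_contra hne
  obtain ⟨E, hE, hmem⟩ := hB (C * B + 1)
  have h0 := hprin _ hmem
  rw [map_sub, sub_eq_zero, map_nsmul] at h0
  have h1 : ((C * B + 1) • δ D) Q = (δ E) Q := by rw [h0]
  rw [Finsupp.smul_apply, nsmul_eq_mul] at h1
  have h2 : ((δ E) Q).natAbs ≤ C * B :=
    (natAbs_apply_le_nrm _ _).trans ((nrm_map_le δ C hC E).trans (Nat.mul_le_mul_left _ hE))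
  have h3 : (C * B + 1) * ((δ D) Q).natAbs ≤ C * B := by
    have := congrArg Int.natAbs h1
    rw [Int.natAbs_mul, Int.natAbs_natCast] at this
    rw [this]; exact h2
  have h4 : 1 ≤ ((δ D) Q).natAbs := Int.natAbs_pos.mpr hne
  have h5 : (C * B + 1) * 1 ≤ (C * B + 1) * ((δ D) Q).natAbs := Nat.mul_le_mul_left _ h4
  omega

end Bounded

section Pointwise

variable {X Y : Type*}

/-- total mass of a finitely supported integer function -/
noncomputable def mass (E : Y →₀ ℤ) : ℤ := E.sum fun _ n => n

theorem mass_add (D E : Y →₀ ℤ) : mass (D + E) = mass D + mass E := by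
  classical
  rw [mass, mass, mass]
  exact Finsupp.sum_add_index' (fun _ => rfl) (fun _ _ _ => rfl)

theorem mass_single (Q : Y) (n : ℤ) : mass (single Q n) = n := by
  rw [mass, Finsupp.sum_single_index rfl]

theorem mass_sub (D E : Y →₀ ℤ) : mass (D - E) = mass D - mass E := by
  have h := mass_add (D - E) E
  rw [sub_add_cancel] at h
  rw [h]; ring

theorem eq_zero_of_nonneg_of_mass_le {c : Y →₀ ℤ} (h0 : ∀ Q, 0 ≤ c Q) (hm : mass c ≤ 0) :
    c = 0 := by
  classical
  ext Q
  rw [Finsupp.zero_apply]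
  by_contra hne
  have hQ : Q ∈ c.support := Finsupp.mem_support_iff.mpr hne
  have h1 : c Q ≤ mass c := by
    rw [mass, Finsupp.sum]
    exact Finset.single_le_sum (f := fun y => c y) (fun y _ => h0 y) hQ
  have h2 : 0 < c Q := lt_of_le_of_ne (h0 Q) (Ne.symm hne)
  omega

/-- **Pointwise form.**  Let `τ` and `ρ` be additive with `ρ (single P 1) = [a P] + m [b P]`,
`τ (single P 1) ≥ 0` of mass `≤ m + 1`.  If `τ = ρ` on all differences `single P 1 - single P' 1`
and the pair `(a, b)` avoids every finite set, then `τ (single P 1) = ρ (single P 1)`. -/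
theorem pointwise_of_diff (τ ρ : (X →₀ ℤ) →+ (Y →₀ ℤ)) (a b : X → Y) (m : ℕ)
    (hρ : ∀ P, ρ (single P 1) = single (a P) 1 + single (b P) (m : ℤ))
    (hτ0 : ∀ P Q, 0 ≤ τ (single P 1) Q)
    (hτm : ∀ P, mass (τ (single P 1)) ≤ m + 1)
    (hdiff : ∀ P P', τ (single P 1 - single P' 1) = ρ (single P 1 - single P' 1))
    (hinf : ∀ S : Finset Y, ∃ P, a P ∉ S ∧ b P ∉ S)
    (P : X) : τ (single P 1) = ρ (single P 1) := by
  classical
  set c : Y →₀ ℤ := τ (single P 1) - ρ (single P 1) with hc
  have hconst : ∀ P', τ (single P' 1) - ρ (single P' 1) = c := by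
    intro P'
    have h := hdiff P P'
    rw [map_sub, map_sub] at h
    rw [hc]
    have : τ (single P' 1) - ρ (single P' 1)
        = τ (single P 1) - ρ (single P 1) - (τ (single P 1) - τ (single P' 1)
          - (ρ (single P 1) - ρ (single P' 1))) := by abel
    rw [this, h, sub_self, sub_zero]
  have hnonneg : ∀ Q, 0 ≤ c Q := by
    intro Q
    by_contra hneg
    push Not at hneg
    have hQ : Q ∈ c.support := Finsupp.mem_support_iff.mpr (ne_of_lt hneg)
    obtain ⟨P', ha, hb⟩ := hinf c.support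
    have h1 := congrArg (fun E => E Q) (hconst P')
    simp only [Finsupp.sub_apply] at h1
    rw [hρ P', Finsupp.add_apply, Finsupp.single_apply, Finsupp.single_apply,
      if_neg (fun h : a P' = Q => ha (h.symm ▸ hQ)),
      if_neg (fun h : b P' = Q => hb (h.symm ▸ hQ))] at h1
    have := hτ0 P' Q
    omega
  have hmass : mass c ≤ 0 := by
    rw [hc, mass_sub, hρ P, mass_add, mass_single, mass_single]
    have := hτm P
    omega
  have h0 := eq_zero_of_nonneg_of_mass_le hnonneg hmass
  rw [hc, sub_eq_zero] at h0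
  exact h0

end Pointwise

end Fermat.Agent.S37.Sq38
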