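import Fermat.Agent.S37.Core.Geo
import Fermat.Agent.S37.Sq38.BoundedPt
import Fermat.Agent.S37.H98.RiemannBound

/-!
# S37 piece [ES] (squad S37/S38, helper38): Eichler–Shimura on divisors from three inputs

The frozen statement `geoRed_es` of `origin/helper37:Fermat/Agent/S37/Core/Skeleton2.lean`

    r_* (T_ℓ [P]) = [r (σ₀ P)] + ℓ [r (σ₀⁻¹ P)]          (every place `P`)

is proved here from THREE inputs (each a `Prop` with a frozen Lean type, see below), by the
bounded-homomorphism trick of helper697 in pointwise form (`BoundedPt.lean`) and the landed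
Riemann bound for `ℚ̄(X₀(N))` (`H98.riemannBound_modularFunctionFieldBar`):

* `EsPrincipal` (ES-P, Kronecker):  for every INTEGRAL principal divisor `D = div y`,
  `r_* (T_ℓ D) = r_* (σ₀ D) + ℓ r_* (σ₀⁻¹ D)`.
  [math: `T_ℓ div y = div Nm_α(β y)`, `Nm_α(β y) = y(q^ℓ) ∏_b y(ζ^b q^{1/ℓ})` reduces to
  `(Φ⁻¹ȳ)^ℓ · Φ ȳ`, and `σ₀^{±1} y` reduces to `Φ^{±1} ȳ`; then apply `isRed.2` three times.]
* `EsDegree` (ES-D): `T_ℓ [P]` is effective of degree `≤ ℓ + 1`.
* `EsAvoid` (ES-I): the pair `(r ∘ σ₀, r ∘ σ₀⁻¹)` avoids every finite set of places.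

No pointwise unfolding of `T_ℓ`, no Chow forms, no value compatibility is needed for ES-P/ES-D.
-/

set_option autoImplicit false
set_option synthInstance.maxHeartbeats 400000

noncomputable section

namespace Fermat.Agent.S37.Sq38

open ModularCurve ValuationSubring AlgebraicCurve HahnSeries Fermat.Agent.S37.Core

section Inputs

variable (N : ℕ) [NeZero N] (ℓ : ℕ) [NeZero ℓ] (A : ValuationSubring (AlgebraicClosure ℚ))
  (σ₀ : AlgebraicClosure ℚ ≃ₐ[ℚ] AlgebraicClosure ℚ)
  (r : Place (AlgebraicClosure ℚ) (modularFunctionFieldBar N) →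
    Place (IsLocalRing.ResidueField A) (modularFunctionFieldFullC (IsLocalRing.ResidueField A) N))

/-- INPUT ES-P: the Eichler–Shimura relation on integral principal divisors. -/
def EsPrincipal (hα : HeckeAlphaBarIntegral (AlgebraicClosure ℚ) N ℓ)
    (hβ : HeckeBetaBarIntegral (AlgebraicClosure ℚ) N ℓ)
    [HasPrincipalDivisors (AlgebraicClosure ℚ) (modularFunctionFieldBar (N * ℓ))] : Prop :=
  ∀ D ∈ integralPrincipalDivisors A (IsLocalRing.residue A) N,
    Finsupp.mapDomain r (heckeDivBar hα hβ D) =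
      Finsupp.mapDomain r (arithmeticGalois (modularFunctionFieldFull N) σ₀ • D) +
        (ℓ : ℤ) • Finsupp.mapDomain r ((arithmeticGalois (modularFunctionFieldFull N) σ₀)⁻¹ • D)

/-- INPUT ES-D: `T_ℓ [P]` is effective of degree at most `ℓ + 1`. -/
def EsDegree (hα : HeckeAlphaBarIntegral (AlgebraicClosure ℚ) N ℓ)
    (hβ : HeckeBetaBarIntegral (AlgebraicClosure ℚ) N ℓ)
    [HasPrincipalDivisors (AlgebraicClosure ℚ) (modularFunctionFieldBar (N * ℓ))] : Prop :=
  ∀ P : Place (AlgebraicClosure ℚ) (modularFunctionFieldBar N),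
    (∀ P', 0 ≤ heckeDivBar hα hβ (Finsupp.single P 1) P') ∧
      Divisor.degree (heckeDivBar hα hβ (Finsupp.single P 1)) ≤ (ℓ : ℤ) + 1

/-- INPUT ES-I: the pair `(r ∘ σ₀, r ∘ σ₀⁻¹)` avoids every finite set of places. -/
def EsAvoid : Prop :=
  ∀ S : Finset (Place (IsLocalRing.ResidueField A)
      (modularFunctionFieldFullC (IsLocalRing.ResidueField A) N)),
    ∃ P : Place (AlgebraicClosure ℚ) (modularFunctionFieldBar N),
      r (arithmeticGalois (modularFunctionFieldFull N) σ₀ • P) ∉ S ∧
        r ((arithmeticGalois (modularFunctionFieldFull N) σ₀)⁻¹ • P) ∉ S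

end Inputs

section Aux

variable {K F : Type*} [Field K] [Field F] [Algebra K F]

/-- with all places of degree one the degree is the total mass -/
theorem degree_eq_mass (hdeg : ∀ v : Place K F, v.deg = 1) (D : Divisor K F) :
    Divisor.degree D = mass D := by
  classical
  induction D using Finsupp.induction with
  | zero => simp [mass]
  | single_add v n D _ _ ih =>
    rw [map_add, mass_add, ih, Divisor.degree_single, hdeg v, mass_single]
    simp

variable {X Y : Type*}

theorem mass_mapDomain (f : X → Y) (E : X →₀ ℤ) : mass (Finsupp.mapDomain f E) = mass E := by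
  classical
  rw [mass, mass]
  exact Finsupp.sum_mapDomain_index (fun _ => rfl) (fun _ _ _ => rfl)

theorem mapDomain_nonneg (f : X → Y) {E : X →₀ ℤ} (hE : ∀ x, 0 ≤ E x) (y : Y) :
    0 ≤ Finsupp.mapDomain f E y := by
  classical
  induction E using Finsupp.induction with
  | zero => simp
  | single_add x n E hx hn ih =>
    have hn0 : 0 ≤ n := by
      have := hE x
      rw [Finsupp.add_apply, Finsupp.single_eq_same, Finsupp.notMem_support_iff.mp hx,
        add_zero] at this
      exact this
    have hE' : ∀ z, 0 ≤ E z := by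
      intro z
      by_cases hz : z = x
      · subst hz; rw [Finsupp.notMem_support_iff.mp hx]
      · have := hE z
        rwa [Finsupp.add_apply, Finsupp.single_eq_of_ne hz, zero_add] at this
    rw [Finsupp.mapDomain_add, Finsupp.add_apply, Finsupp.mapDomain_single]
    refine add_nonneg ?_ (ih hE')
    rw [Finsupp.single_apply]
    split_ifs
    · exact hn0
    · exact le_rfl

end Aux

section Main

variable {N : ℕ} [NeZero N] {ℓ : ℕ} [NeZero ℓ] {A : ValuationSubring (AlgebraicClosure ℚ)}

/-- **[ES] from the three inputs**, for an arbitrary place map `r` satisfying the Prelude's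
`PrincipalGeneratedByIntegral` (no other property of `r` is used here). -/
theorem es_of_inputs
    (r : Place (AlgebraicClosure ℚ) (modularFunctionFieldBar N) →
      Place (IsLocalRing.ResidueField A)
        (modularFunctionFieldFullC (IsLocalRing.ResidueField A) N))
    (hgen : PrincipalGeneratedByIntegral A (IsLocalRing.residue A) N)
    (σ₀ : AlgebraicClosure ℚ ≃ₐ[ℚ] AlgebraicClosure ℚ)
    (hα : HeckeAlphaBarIntegral (AlgebraicClosure ℚ) N ℓ)
    (hβ : HeckeBetaBarIntegral (AlgebraicClosure ℚ) N ℓ)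
    [HasPrincipalDivisors (AlgebraicClosure ℚ) (modularFunctionFieldBar (N * ℓ))]
    (hP : EsPrincipal N ℓ A σ₀ r hα hβ) (hD : EsDegree N ℓ hα hβ) (hI : EsAvoid N A σ₀ r)
    (P : Place (AlgebraicClosure ℚ) (modularFunctionFieldBar N)) :
    Finsupp.mapDomain r (heckeDivBar hα hβ (Finsupp.single P 1)) =
      Finsupp.single (r (arithmeticGalois (modularFunctionFieldFull N) σ₀ • P)) 1 +
        Finsupp.single (r ((arithmeticGalois (modularFunctionFieldFull N) σ₀)⁻¹ • P))
          (ℓ : ℤ) := by
  classical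
  have hFF := Fermat.Agent.Lib.RR.H864.ff1_modularFunctionFieldBar N
  have hdeg1 : ∀ v : Place (AlgebraicClosure ℚ) (modularFunctionFieldBar N), v.deg = 1 :=
    hFF.deg_eq_one
  set g := arithmeticGalois (modularFunctionFieldFull N) σ₀ with hg
  -- the two additive maps
  let τ : Divisor (AlgebraicClosure ℚ) (modularFunctionFieldBar N) →+
      Divisor (IsLocalRing.ResidueField A)
        (modularFunctionFieldFullC (IsLocalRing.ResidueField A) N) :=
    (Finsupp.mapDomain.addMonoidHom r).comp (heckeDivBar hα hβ)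
  let ρ : Divisor (AlgebraicClosure ℚ) (modularFunctionFieldBar N) →+
      Divisor (IsLocalRing.ResidueField A)
        (modularFunctionFieldFullC (IsLocalRing.ResidueField A) N) :=
    (Finsupp.mapDomain.addMonoidHom r).comp (DistribSMul.toAddMonoidHom _ g) +
      (ℓ : ℤ) • (Finsupp.mapDomain.addMonoidHom r).comp (DistribSMul.toAddMonoidHom _ g⁻¹)
  have hτ : ∀ D, τ D = Finsupp.mapDomain r (heckeDivBar hα hβ D) := fun _ => rfl
  have hρ : ∀ D, ρ D = Finsupp.mapDomain r (g • D) + (ℓ : ℤ) • Finsupp.mapDomain r (g⁻¹ • D) :=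
    fun _ => rfl
  have hρs : ∀ P, ρ (Finsupp.single P 1) =
      Finsupp.single (r (g • P)) 1 + Finsupp.single (r (g⁻¹ • P)) ((ℓ : ℕ) : ℤ) := by
    intro P
    rw [hρ, SemilinearAut.smul_single, SemilinearAut.smul_single, Finsupp.mapDomain_single,
      Finsupp.mapDomain_single, Finsupp.smul_single, smul_eq_mul, mul_one]
  -- `τ - ρ` kills principal divisors
  have hprin : ∀ D ∈ Divisor.principal (K := AlgebraicClosure ℚ)
      (F := modularFunctionFieldBar N), (τ - ρ) D = 0 := by
    intro D hDp
    have hD' := hgen hDp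
    clear hDp
    induction hD' using AddSubgroup.closure_induction with
    | mem E hE =>
      rw [AddMonoidHom.sub_apply, hτ, hρ, hP E hE, sub_self]
    | zero => exact map_zero _
    | add E E' _ _ hE hE' => rw [map_add, hE, hE', add_zero]
    | neg E _ hE => rw [map_neg, hE, neg_zero]
  -- positivity and mass of `τ [P]`
  have hτ0 : ∀ P Q, 0 ≤ τ (Finsupp.single P 1) Q := fun P Q =>
    mapDomain_nonneg r (hD P).1 Q
  have hτm : ∀ P, mass (τ (Finsupp.single P 1)) ≤ (ℓ : ℤ) + 1 := by
    intro P
    rw [hτ, mass_mapDomain, ← degree_eq_mass hdeg1]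
    exact (hD P).2
  -- boundedness
  have hC : ∀ P, nrm ((τ - ρ) (Finsupp.single P 1)) ≤ (ℓ + 1) + (1 + ℓ) := by
    intro P
    rw [AddMonoidHom.sub_apply]
    refine (nrm_sub_le _ _).trans (add_le_add ?_ ?_)
    · have h1 : (nrm (τ (Finsupp.single P 1)) : ℤ) = mass (τ (Finsupp.single P 1)) :=
        nrm_eq_sum_of_nonneg (hτ0 P)
      have h2 := hτm P
      omega
    · rw [hρs]
      refine (nrm_add_le _ _).trans ?_
      rw [nrm_single, nrm_single]
      simp
  -- Riemann bound
  obtain ⟨B, hB⟩ := Fermat.Agent.S37.H98.riemannBound_modularFunctionFieldBar N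
  have hzero : ∀ D : Divisor (AlgebraicClosure ℚ) (modularFunctionFieldBar N),
      Divisor.degree D = 0 → (τ - ρ) D = 0 := by
    intro D hD0
    refine eq_zero_of_bounded (τ - ρ) _ hprin _ hC D B (fun n => ?_)
    have hn : Divisor.degree (n • D) = 0 := by rw [map_nsmul, hD0, smul_zero]
    exact hB (n • D) hn
  have hdiff : ∀ P P', τ (Finsupp.single P 1 - Finsupp.single P' 1) =
      ρ (Finsupp.single P 1 - Finsupp.single P' 1) := by
    intro P P'
    have h0 : Divisor.degree (Finsupp.single P 1 - Finsupp.single P' 1 :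
        Divisor (AlgebraicClosure ℚ) (modularFunctionFieldBar N)) = 0 := by
      rw [map_sub, Divisor.degree_single, Divisor.degree_single, hdeg1, hdeg1, sub_self]
    have := hzero _ h0
    rwa [AddMonoidHom.sub_apply, sub_eq_zero] at this
  have key := pointwise_of_diff τ ρ (fun P => r (g • P)) (fun P => r (g⁻¹ • P)) ℓ hρs hτ0
    (fun P => by simpa using hτm P) hdiff hI P
  rw [hτ, hρs] at key
  exact key

/-- **Frozen piece [ES]** (`geoRed_es` of `Core/Skeleton2.lean`) from the three inputs. -/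
theorem geoRed_es_of_inputs (G : GeoRed A N)
    (σ₀ : AlgebraicClosure ℚ ≃ₐ[ℚ] AlgebraicClosure ℚ)
    (hα : HeckeAlphaBarIntegral (AlgebraicClosure ℚ) N ℓ)
    (hβ : HeckeBetaBarIntegral (AlgebraicClosure ℚ) N ℓ)
    [HasPrincipalDivisors (AlgebraicClosure ℚ) (modularFunctionFieldBar (N * ℓ))]
    (hP : EsPrincipal N ℓ A σ₀ G.r hα hβ) (hD : EsDegree N ℓ hα hβ) (hI : EsAvoid N A σ₀ G.r)
    (P : Place (AlgebraicClosure ℚ) (modularFunctionFieldBar N)) :
    Finsupp.mapDomain G.r (heckeDivBar hα hβ (Finsupp.single P 1)) =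
      Finsupp.single (G.r (arithmeticGalois (modularFunctionFieldFull N) σ₀ • P)) 1 +
        Finsupp.single (G.r ((arithmeticGalois (modularFunctionFieldFull N) σ₀)⁻¹ • P))
          (ℓ : ℤ) :=
  es_of_inputs G.r G.gen σ₀ hα hβ hP hD hI P

end Main

end Fermat.Agent.S37.Sq38

end
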